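import Fermat.Agent.ReflectionGroups.Basic
import Mathlib.RingTheory.MvPolynomial.Ideal

/-!
# Translations, orders of vanishing and separating polynomials

A matrix acts on points by `x ↦ x ᵥ* g`. If the point `v` is fixed by `h` then the translation
`p(X) ↦ p(X + v)` commutes with `h`. A polynomial equal to `1` at `v` and to `0` at other orbit
points to high order turns invariants of the stabiliser into invariants of the group.
-/

set_option autoImplicit false

noncomputable section

open MvPolynomial

namespace FA.SteinbergFixed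

open Fermat.Agent.ReflectionGroups

variable {n : ℕ} {k : Type*} [Field k]

/-- Translation by a point. -/
def shift (v : Fin n → k) : MvPolynomial (Fin n) k →ₐ[k] MvPolynomial (Fin n) k :=
  aeval fun j => X j + C (v j)

theorem shift_X (v : Fin n → k) (j : Fin n) : shift v (X j) = X j + C (v j) :=
  aeval_X _ _

theorem shift_neg (v : Fin n → k) (p : MvPolynomial (Fin n) k) : shift v (shift (-v) p) = p := by
  rw [← AlgHom.comp_apply]
  conv_rhs => rw [← AlgHom.id_apply (R := k) p]
  congr 1
  exact algHom_ext fun j => by simp [shift]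

theorem constantCoeff_shift (v : Fin n → k) (p : MvPolynomial (Fin n) k) :
    constantCoeff (shift v p) = eval v p := by
  induction p using MvPolynomial.induction_on with
  | C a => simp [shift]
  | add p q hp hq => simp [hp, hq]
  | mul_X p j hp => simp [hp, shift_X]

theorem shift_act (g : Matrix (Fin n) (Fin n) k) (v : Fin n → k) (p : MvPolynomial (Fin n) k) :
    shift v (act g p) = act g (shift (Matrix.vecMul v g) p) := by
  rw [← AlgHom.comp_apply, ← AlgHom.comp_apply]
  congr 1
  refine algHom_ext fun j => ?_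
  rw [AlgHom.comp_apply, AlgHom.comp_apply, act_X, shift_X, map_add, act_X, map_sum,
    show act g (C (Matrix.vecMul v g j)) = C (Matrix.vecMul v g j) from (act g).commutes _,
    Matrix.vecMul, dotProduct, map_sum, ← Finset.sum_add_distrib]
  refine Finset.sum_congr rfl fun i _ => ?_
  rw [map_mul, shift_X, show shift v (C (g i j)) = C (g i j) from (shift v).commutes _, map_mul]
  ring

theorem act_mem_pow_idealOfVars (g : Matrix (Fin n) (Fin n) k) {N : ℕ}
    {p : MvPolynomial (Fin n) k} (hp : p ∈ idealOfVars (Fin n) k ^ N) :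
    act g p ∈ idealOfVars (Fin n) k ^ N := by
  have h : (idealOfVars (Fin n) k).map (act g).toRingHom ≤ idealOfVars (Fin n) k := by
    rw [idealOfVars, Ideal.map_span, Ideal.span_le]
    rintro _ ⟨_, ⟨j, rfl⟩, rfl⟩
    show act g (X j) ∈ Ideal.span (Set.range X)
    rw [act_X]
    exact sum_mem fun i _ => Ideal.mul_mem_left _ _ (Ideal.subset_span ⟨i, rfl⟩)
  have h1 := Ideal.mem_map_of_mem (act g).toRingHom hp
  rw [Ideal.map_pow] at h1
  exact Ideal.pow_right_mono h N h1

theorem component_eq_zero {N : ℕ} {p : MvPolynomial (Fin n) k}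
    (hp : p ∈ idealOfVars (Fin n) k ^ N) {e : ℕ} (he : e < N) : homogeneousComponent e p = 0 := by
  ext μ
  rw [coeff_homogeneousComponent, coeff_zero]
  split_ifs with h
  · exact (mem_pow_idealOfVars_iff' N p).1 hp μ (h ▸ he)
  · rfl

theorem mem_idealOfVars {p : MvPolynomial (Fin n) k} (hp : constantCoeff p = 0) :
    p ∈ idealOfVars (Fin n) k := by
  rw [← pow_one (idealOfVars (Fin n) k), mem_pow_idealOfVars_iff']
  intro μ hμ
  rw [(Finsupp.degree_eq_zero_iff μ).1 (Nat.lt_one_iff.1 hμ)]
  exact hp

/-- A polynomial `1` at `v` and `0` at the points of `W`, both to order `N`. -/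
theorem exists_separator (v : Fin n → k) (W : Finset (Fin n → k)) (hW : v ∉ W) (N : ℕ) :
    ∃ q : MvPolynomial (Fin n) k, shift v q - 1 ∈ idealOfVars (Fin n) k ^ N ∧
      ∀ w ∈ W, shift w q ∈ idealOfVars (Fin n) k ^ N := by
  classical
  have hsep : ∀ w : W, ∃ j, w.1 j ≠ v j := fun w =>
    Function.ne_iff.1 fun h => hW (h ▸ w.2)
  choose j hj using hsep
  set u : MvPolynomial (Fin n) k :=
    ∏ w : W, C (v (j w) - w.1 (j w))⁻¹ * (X (j w) - C (w.1 (j w)))
  refine ⟨1 - (1 - u ^ N) ^ N, ?_, fun w hw => ?_⟩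
  · rw [map_sub, map_one, show (1 : MvPolynomial (Fin n) k) - shift v ((1 - u ^ N) ^ N) - 1 =
      -shift v ((1 - u ^ N) ^ N) by ring, neg_mem_iff, map_pow]
    refine Ideal.pow_mem_pow (mem_idealOfVars ?_) N
    rw [constantCoeff_shift, map_sub, map_one, map_pow]
    simp only [u, map_prod, map_mul, map_sub, eval_C, eval_X]
    rw [Finset.prod_eq_one fun x _ => inv_mul_cancel₀ (sub_ne_zero.2 (hj x).symm), one_pow,
      sub_self]
  · rw [map_sub, map_one, map_pow, map_sub, map_one, map_pow]
    have hu : shift w u ∈ idealOfVars (Fin n) k := by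
      refine mem_idealOfVars ?_
      rw [constantCoeff_shift]
      simp only [u, map_prod, map_mul, map_sub, eval_C, eval_X]
      exact Finset.prod_eq_zero (Finset.mem_univ ⟨w, hw⟩) (by simp)
    have hdvd := sub_dvd_pow_sub_pow (1 : MvPolynomial (Fin n) k) (1 - shift w u ^ N) N
    rw [one_pow, sub_sub_cancel] at hdvd
    exact Ideal.mem_of_dvd _ hdvd (Ideal.pow_mem_pow hu N)

variable (G : Subgroup (GL (Fin n) k))

/-- The stabiliser of a point. -/
def stab (v : Fin n → k) : Subgroup (GL (Fin n) k) where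
  carrier := {g | g ∈ G ∧ Matrix.vecMul v (g : Matrix (Fin n) (Fin n) k) = v}
  mul_mem' {a b} ha hb := ⟨mul_mem ha.1 hb.1, by
    rw [Units.val_mul, ← Matrix.vecMul_vecMul, ha.2, hb.2]⟩
  one_mem' := ⟨one_mem G, by rw [Units.val_one, Matrix.vecMul_one]⟩
  inv_mem' {a} ha := ⟨inv_mem ha.1, by
    conv_lhs => rw [← ha.2]
    rw [Matrix.vecMul_vecMul, ← Units.val_mul, mul_inv_cancel, Units.val_one, Matrix.vecMul_one]⟩

theorem stab_le (v : Fin n → k) : stab G v ≤ G := fun _ hg => hg.1

theorem mem_stab {v : Fin n → k} {g : GL (Fin n) k} :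
    g ∈ stab G v ↔ g ∈ G ∧ Matrix.vecMul v (g : Matrix (Fin n) (Fin n) k) = v :=
  Iff.rfl

theorem shift_mem_invariants {v : Fin n → k} {p : MvPolynomial (Fin n) k}
    (hp : p ∈ invariants (stab G v)) {w : Fin n → k} (hw : w = v ∨ w = -v) :
    shift w p ∈ invariants (stab G v) := by
  intro g hg
  have hg' : Matrix.vecMul w (g : Matrix (Fin n) (Fin n) k) = w := by
    rcases hw with rfl | rfl
    · exact hg.2
    · rw [Matrix.neg_vecMul, hg.2]
  conv_lhs => rw [← hg', ← shift_act]
  rw [hp g hg]

variable [Finite G] [CharZero k]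

/-- Invariants of the stabiliser come from invariants of the group, to any order. -/
theorem exists_invariant_congr (v : Fin n → k) {q : MvPolynomial (Fin n) k}
    (hq : q ∈ invariants (stab G v)) (N : ℕ) :
    ∃ T ∈ invariants G, shift v T - q ∈ idealOfVars (Fin n) k ^ N := by
  classical
  let _ := Fintype.ofFinite G
  set H := stab G v
  have hfin : Finite H := Finite.of_injective _ (Subgroup.inclusion_injective (stab_le G v))
  set S := (Finset.univ.image fun g : G =>
    Matrix.vecMul v ((g : GL (Fin n) k) : Matrix (Fin n) (Fin n) k)).erase v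
  obtain ⟨s, hs1, hs0⟩ := exists_separator v S (Finset.notMem_erase _ _) N
  set p := shift (-v) q
  have hp : p ∈ invariants H := shift_mem_invariants G hq (Or.inr rfl)
  set J := idealOfVars (Fin n) k ^ N
  refine ⟨C ((Nat.card G : k) * (Nat.card H : k)⁻¹) * average G (s * p),
    mul_mem (Subalgebra.algebraMap_mem _ _) (average_mem G _), ?_⟩
  have hterm : ∀ g : G, shift v (act ((g : GL (Fin n) k) : Matrix (Fin n) (Fin n) k) (s * p)) -
      (if (g : GL (Fin n) k) ∈ H then q else 0) ∈ J := fun g => by
    rw [shift_act, map_mul]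
    split_ifs with hg
    · rw [hg.2, shift_neg, map_mul, hq g hg, ← sub_one_mul]
      have h1 := act_mem_pow_idealOfVars ((g : GL (Fin n) k) : Matrix (Fin n) (Fin n) k) hs1
      rw [map_sub, map_one] at h1
      exact Ideal.mul_mem_right _ _ h1
    · rw [sub_zero, map_mul]
      refine Ideal.mul_mem_right _ _ (act_mem_pow_idealOfVars _ (hs0 _ ?_))
      exact Finset.mem_erase.2 ⟨fun h => hg ⟨g.2, h⟩, Finset.mem_image_of_mem _ (Finset.mem_univ g)⟩
  have hsum : ∑ g : G, (if (g : GL (Fin n) k) ∈ H then q else 0) = (Nat.card H : k) • q := by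
    rw [← Finset.sum_filter, Finset.sum_const, ← Nat.cast_smul_eq_nsmul k]
    congr 2
    rw [← Fintype.card_subtype, ← Nat.card_eq_fintype_card]
    exact Nat.card_congr
      { toFun := fun g => ⟨g.1, g.2⟩
        invFun := fun g => ⟨⟨g.1, g.2.1⟩, g.2⟩
        left_inv := fun _ => rfl
        right_inv := fun _ => rfl }
  have key : shift v (C ((Nat.card G : k) * (Nat.card H : k)⁻¹) * average G (s * p)) - q =
      C (Nat.card H : k)⁻¹ * ∑ g : G,
        (shift v (act ((g : GL (Fin n) k) : Matrix (Fin n) (Fin n) k) (s * p)) -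
          if (g : GL (Fin n) k) ∈ H then q else 0) := by
    rw [Finset.sum_sub_distrib, hsum, mul_sub, smul_eq_C_mul, ← mul_assoc (C _) (C _) q, ← C_mul,
      inv_mul_cancel₀ (Nat.cast_ne_zero.2 Nat.card_pos.ne'), C_1, one_mul, average,
      ← mul_assoc, ← C_mul, mul_right_comm,
      mul_inv_cancel₀ (Nat.cast_ne_zero.2 Nat.card_pos.ne'), one_mul, map_mul, map_sum,
      show shift v (C (Nat.card H : k)⁻¹) = C (Nat.card H : k)⁻¹ from (shift v).commutes _]
  rw [key]
  exact Ideal.mul_mem_left _ _ (sum_mem fun g _ => hterm g)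

end FA.SteinbergFixed
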