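import Fermat.Agent.SteinbergFixed.Main

/-!
# Steinberg's theorem for the action on columns

The automorphism `g ↦ (g⁻¹)ᵀ` preserves pseudo-reflections and turns the action on columns into
that on rows.
-/

set_option autoImplicit false

noncomputable section

namespace FA.SteinbergFixed

variable {n : ℕ} {k : Type*} [Field k]

/-- The contragredient. -/
def contra : GL (Fin n) k →* GL (Fin n) k where
  toFun g :=
    { val := ((g⁻¹ : GL (Fin n) k) : Matrix (Fin n) (Fin n) k).transpose
      inv := (g : Matrix (Fin n) (Fin n) k).transpose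
      val_inv := by rw [← Matrix.transpose_mul, ← Units.val_mul, mul_inv_cancel, Units.val_one,
        Matrix.transpose_one]
      inv_val := by rw [← Matrix.transpose_mul, ← Units.val_mul, inv_mul_cancel, Units.val_one,
        Matrix.transpose_one] }
  map_one' := Units.ext (by simp)
  map_mul' g h := Units.ext (by simp [mul_inv_rev, Matrix.transpose_mul])

theorem coe_contra (g : GL (Fin n) k) : (contra g : Matrix (Fin n) (Fin n) k) =
    ((g⁻¹ : GL (Fin n) k) : Matrix (Fin n) (Fin n) k).transpose :=
  rfl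

theorem contra_contra (g : GL (Fin n) k) : contra (contra g) = g :=
  Units.ext (Matrix.transpose_transpose _)

theorem contra_injective : Function.Injective (contra (n := n) (k := k)) :=
  Function.LeftInverse.injective contra_contra

theorem rank_contra_sub_one (g : GL (Fin n) k) :
    ((contra g : Matrix (Fin n) (Fin n) k) - 1).rank =
      ((g : Matrix (Fin n) (Fin n) k) - 1).rank := by
  rw [coe_contra, ← Matrix.transpose_one, ← Matrix.transpose_sub, Matrix.rank_transpose,
    Matrix.transpose_one,
    show ((g⁻¹ : GL (Fin n) k) : Matrix (Fin n) (Fin n) k) - 1 =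
      (-((g⁻¹ : GL (Fin n) k) : Matrix (Fin n) (Fin n) k)) * ((g : Matrix (Fin n) (Fin n) k) - 1) by
        rw [mul_sub, mul_one, neg_mul, Units.inv_mul, sub_neg_eq_add, neg_add_eq_sub],
    Matrix.rank_mul_eq_right_of_isUnit_det]
  rw [← Matrix.isUnit_iff_isUnit_det]
  exact (-g⁻¹).isUnit

theorem vecMul_contra_eq_iff (g : GL (Fin n) k) (v : Fin n → k) :
    Matrix.vecMul v (contra g : Matrix (Fin n) (Fin n) k) = v ↔
      Matrix.mulVec (g : Matrix (Fin n) (Fin n) k) v = v := by
  rw [coe_contra, Matrix.vecMul_transpose]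
  constructor <;> intro h <;> conv_lhs => rw [← h]
  · rw [Matrix.mulVec_mulVec, Units.mul_inv, Matrix.one_mulVec]
  · rw [Matrix.mulVec_mulVec, Units.inv_mul, Matrix.one_mulVec]

/-- **Steinberg's theorem**, action on columns. -/
theorem steinberg_columns [CharZero k] (G : Subgroup (GL (Fin n) k)) [Finite G]
    (hG : G = Subgroup.closure {g | g ∈ G ∧ ((g : Matrix (Fin n) (Fin n) k) - 1).rank ≤ 1})
    (S : Set (Fin n → k)) {g : GL (Fin n) k} (hg : g ∈ G)
    (hS : ∀ v ∈ S, Matrix.mulVec (g : Matrix (Fin n) (Fin n) k) v = v) :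
    g ∈ Subgroup.closure {h | h ∈ G ∧
      (∀ v ∈ S, Matrix.mulVec (h : Matrix (Fin n) (Fin n) k) v = v) ∧
        ((h : Matrix (Fin n) (Fin n) k) - 1).rank ≤ 1} := by
  have hfin : Finite (G.map contra) :=
    Finite.of_equiv G (G.equivMapOfInjective contra contra_injective).toEquiv
  have hG' : G.map contra = Subgroup.closure
      {a | a ∈ G.map contra ∧ ((a : Matrix (Fin n) (Fin n) k) - 1).rank ≤ 1} := by
    refine le_antisymm ?_ ((Subgroup.closure_le _).2 fun a ha => ha.1)
    conv_lhs => rw [hG, MonoidHom.map_closure]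
    refine (Subgroup.closure_le _).2 ?_
    rintro _ ⟨b, hb, rfl⟩
    exact Subgroup.subset_closure
      ⟨Subgroup.mem_map_of_mem _ hb.1, (rank_contra_sub_one b).le.trans hb.2⟩
  have h1 : contra g ∈ fixSet (G.map contra) S :=
    (mem_fixSet _).2 ⟨Subgroup.mem_map_of_mem _ hg, fun v hv =>
      (vecMul_contra_eq_iff g v).2 (hS v hv)⟩
  rw [steinberg_set (G.map contra) hG' S] at h1
  have h2 := Subgroup.mem_map_of_mem contra h1
  rw [contra_contra, MonoidHom.map_closure] at h2
  refine (Subgroup.closure_le _).2 ?_ h2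
  rintro _ ⟨a, ⟨ha, hr⟩, rfl⟩
  obtain ⟨⟨b, hb, rfl⟩, hfix⟩ := (mem_fixSet _).1 ha
  rw [contra_contra]
  exact Subgroup.subset_closure ⟨hb, fun v hv => (vecMul_contra_eq_iff b v).1 (hfix v hv),
    (rank_contra_sub_one b).ge.trans hr⟩

end FA.SteinbergFixed
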