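import Fermat.Agent.Molien.Degrees
import Mathlib.Combinatorics.Hall.Basic

/-!
# The converse of the theorem of Shephard and Todd

If the invariants of `G` are generated by `n` homogeneous elements of degrees `dᵢ`, these are
algebraically independent. Let `H` be the subgroup generated by the pseudo-reflections of `G`, of
degrees `eⱼ`. By independence and Hall's theorem `e (σ i) ≤ dᵢ` for some permutation `σ`; as both
`∑ (dᵢ - 1)` and `∑ (eⱼ - 1)` count the reflections, `|G| = ∏ dᵢ = ∏ eⱼ = |H|`.
-/

set_option autoImplicit false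

noncomputable section

open MvPolynomial

namespace FA.SteinbergFixed

open Fermat.Agent.ReflectionGroups

variable {n : ℕ} {k : Type*} [Field k] (G : Subgroup (GL (Fin n) k)) [Finite G]

/-- Every polynomial is algebraic over any algebra containing the invariants. -/
theorem isAlgebraic_adjoin {m : ℕ} {f : Fin m → MvPolynomial (Fin n) k}
    (hgen : invariants G = Algebra.adjoin k (Set.range f)) :
    Algebra.IsAlgebraic (Algebra.adjoin k (Set.range f)) (MvPolynomial (Fin n) k) := by
  classical
  let _ := Fintype.ofFinite G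
  refine ⟨fun p => IsIntegral.isAlgebraic ?_⟩
  set q : Polynomial (MvPolynomial (Fin n) k) := ∏ g : G,
    (Polynomial.X - Polynomial.C (act ((g : GL (Fin n) k) : Matrix (Fin n) (Fin n) k) p))
  have hlift : q ∈ Polynomial.lifts
      (algebraMap (Algebra.adjoin k (Set.range f)) (MvPolynomial (Fin n) k)) := by
    refine (Polynomial.lifts_iff_coeff_lifts q).2 fun i => ⟨⟨q.coeff i, ?_⟩, rfl⟩
    rw [← hgen]
    intro g hg
    show ((act (g : Matrix (Fin n) (Fin n) k)) : _ →+* _) (q.coeff i) = q.coeff i
    rw [← Polynomial.coeff_map]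
    congr 1
    simp only [q, Polynomial.map_prod, Polynomial.map_sub, Polynomial.map_X, Polynomial.map_C]
    refine Eq.trans (Finset.prod_congr rfl fun h _ => ?_) (Equiv.prod_comp
      (Equiv.mulLeft (⟨g, hg⟩ : G)) fun h : G => Polynomial.X -
        Polynomial.C (act ((h : GL (Fin n) k) : Matrix (Fin n) (Fin n) k) p))
    rw [Equiv.coe_mulLeft, Subgroup.coe_mul, Units.val_mul, act_mul]
    rfl
  obtain ⟨r, hr, -, hrm⟩ := Polynomial.lifts_and_natDegree_eq_and_monic hlift
    (Polynomial.monic_prod_of_monic _ _ fun g _ => Polynomial.monic_X_sub_C _)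
  refine ⟨r, hrm, ?_⟩
  rw [← Polynomial.eval_map, hr, Polynomial.eval_prod]
  exact Finset.prod_eq_zero (Finset.mem_univ 1) (by simp [act_one])

/-- At least `n` elements are needed to generate the invariants. -/
theorem le_card_generators {m : ℕ} {f : Fin m → MvPolynomial (Fin n) k}
    (hgen : invariants G = Algebra.adjoin k (Set.range f)) : n ≤ m := by
  classical
  have := isAlgebraic_adjoin G hgen
  have h1 := Algebra.IsAlgebraic.trdeg_le_cardinalMk k (A := MvPolynomial (Fin n) k)
    (s := Set.range f)
  have h2 : Algebra.trdeg k (MvPolynomial (Fin n) k) = n := by simp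
  rw [h2] at h1
  have h3 : Cardinal.mk (Set.range f) = (Nat.card (Set.range f) : Cardinal) :=
    Nat.cast_card.symm
  rw [h3, Nat.cast_le] at h1
  refine h1.trans ((Finite.card_range_le f).trans_eq ?_)
  simp

/-- `n` generators are algebraically independent. -/
theorem algebraicIndependent_of_generates {f : Fin n → MvPolynomial (Fin n) k}
    (hgen : invariants G = Algebra.adjoin k (Set.range f)) : AlgebraicIndependent k f := by
  have := isAlgebraic_adjoin G hgen
  refine (Algebra.IsAlgebraic.isTranscendenceBasis_of_lift_le_trdeg_of_finite k f ?_).1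
  simp

/-- An element of weighted degree at most `D` uses only generators of degree at most `D`. -/
theorem mem_adjoin_of_degree {m : ℕ} {h : Fin m → MvPolynomial (Fin n) k} {e : Fin m → ℕ}
    (hh : ∀ j, (h j).IsHomogeneous (e j)) {p : MvPolynomial (Fin n) k} {D : ℕ}
    (hp : p ∈ Algebra.adjoin k (Set.range h)) (hD : p.IsHomogeneous D) :
    p ∈ Algebra.adjoin k (h '' {j | e j ≤ D}) := by
  rw [Algebra.adjoin_range_eq_range_aeval] at hp
  obtain ⟨P, hP⟩ : ∃ P, aeval h P = p := hp
  rw [← homogeneousComponent_eq_self hD, ← hP, component_aeval hh,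
    (weightedHomogeneousComponent e D P).as_sum, map_sum]
  refine sum_mem fun μ hμ => ?_
  rw [aeval_monomial]
  refine mul_mem (Subalgebra.algebraMap_mem _ _) (prod_mem fun j hj => pow_mem ?_ _)
  refine Algebra.subset_adjoin ⟨j, ?_, rfl⟩
  rw [Set.mem_ofPred_eq, ← weightedHomogeneousComponent_isWeightedHomogeneous D P
    (mem_support_iff.1 hμ)]
  exact Finsupp.le_weight_of_ne_zero' e (Finsupp.mem_support_iff.1 hj)

/-- Independent elements of an algebra with independent generators are at most as many. -/
theorem card_le_of_mem_adjoin {ι κ : Type*} {h : κ → MvPolynomial (Fin n) k}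
    {f : ι → MvPolynomial (Fin n) k} (hf : AlgebraicIndependent k f) (s : Finset ι) (J : Finset κ)
    (hJ : ∀ i ∈ s, f i ∈ Algebra.adjoin k (h '' J)) : s.card ≤ J.card := by
  have hP : ∀ i : s, ∃ P : MvPolynomial J k, aeval (fun j : J => h j) P = f i := fun i => by
    have := hJ i i.2
    rw [Set.image_eq_range, Algebra.adjoin_range_eq_range_aeval] at this
    exact this
  choose P hP using hP
  have hind : AlgebraicIndependent k P := by
    refine algebraicIndependent_iff.2 fun Q hQ => ?_
    refine algebraicIndependent_iff.1 (hf.comp (fun i : s => (i : ι)) Subtype.val_injective) Q ?_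
    have h1 := congrArg (aeval fun j : J => h j) hQ
    rw [map_zero, ← AlgHom.comp_apply, comp_aeval] at h1
    simpa only [Function.comp_def, hP] using h1
  simpa using hind.lift_cardinalMk_le_trdeg

/-- The subgroup generated by the pseudo-reflections. -/
def reflectionSubgroup : Subgroup (GL (Fin n) k) :=
  Subgroup.closure {g | g ∈ G ∧ ((g : Matrix (Fin n) (Fin n) k) - 1).rank ≤ 1}

omit [Finite G] in
theorem reflectionSubgroup_le : reflectionSubgroup G ≤ G :=
  (Subgroup.closure_le _).2 fun _ hg => hg.1

omit [Finite G] in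
theorem mem_reflectionSubgroup {g : GL (Fin n) k} (hg : g ∈ G)
    (hr : ((g : Matrix (Fin n) (Fin n) k) - 1).rank ≤ 1) : g ∈ reflectionSubgroup G :=
  Subgroup.subset_closure ⟨hg, hr⟩

variable [CharZero k]

/-- **The converse of Shephard and Todd.** -/
theorem shephard_todd_converse {f : Fin n → MvPolynomial (Fin n) k} {d : Fin n → ℕ}
    (hf : ∀ i, 0 < d i ∧ (f i).IsHomogeneous (d i))
    (hgen : invariants G = Algebra.adjoin k (Set.range f)) :
    G = Subgroup.closure {g | g ∈ G ∧ ((g : Matrix (Fin n) (Fin n) k) - 1).rank ≤ 1} := by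
  classical
  have hle := reflectionSubgroup_le G
  set H := reflectionSubgroup G with hH
  have : Finite H := Finite.of_injective _ (Subgroup.inclusion_injective hle)
  have hHgen : H = Subgroup.closure
      {g | g ∈ H ∧ ((g : Matrix (Fin n) (Fin n) k) - 1).rank ≤ 1} :=
    le_antisymm ((Subgroup.closure_le _).2 fun g hg =>
      Subgroup.subset_closure ⟨mem_reflectionSubgroup G hg.1 hg.2, hg.2⟩)
      ((Subgroup.closure_le _).2 fun g hg => hg.1)
  obtain ⟨h, e, he, heind, hegen⟩ := exists_basic_invariants H hHgen
  have hind := algebraicIndependent_of_generates G hgen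
  obtain ⟨hGprod, hGsum⟩ := FA.Molien.degree_formulas G hf hind hgen
  obtain ⟨hHprod, hHsum⟩ := FA.Molien.degree_formulas H he heind hegen
  -- the same reflections
  have hrefl : Nat.card (FA.Molien.reflections G) = Nat.card (FA.Molien.reflections H) := by
    refine (Nat.card_congr (Equiv.ofBijective (fun g : FA.Molien.reflections H =>
      (⟨Subgroup.inclusion hle g.1, ?_, g.2.2⟩ : FA.Molien.reflections G)) ⟨?_, ?_⟩)).symm
    · exact fun h1 => g.2.1 (Subgroup.inclusion_injective hle (h1.trans (map_one _).symm))
    · exact fun a b hab => Subtype.ext (Subgroup.inclusion_injective hle (congrArg Subtype.val hab))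
    · rintro ⟨g, h1, h2⟩
      refine ⟨⟨⟨g, mem_reflectionSubgroup G g.2 h2⟩, fun h3 => ?_, h2⟩, rfl⟩
      exact h1 (Subtype.ext (congrArg (fun x : H => (x : GL (Fin n) k)) h3 :))
  -- degrees dominate
  obtain ⟨σ, hσi, hσ⟩ := (Finset.all_card_le_biUnion_card_iff_exists_injective
    (fun i => Finset.univ.filter fun j => e j ≤ d i)).1 fun s => by
    refine card_le_of_mem_adjoin hind s _ fun i hi => Algebra.adjoin_mono (Set.image_mono ?_)
      (mem_adjoin_of_degree (fun j => (he j).2) ?_ (hf i).2)
    · exact fun j hj => Finset.mem_coe.2 (Finset.mem_biUnion.2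
        ⟨i, hi, Finset.mem_filter.2 ⟨Finset.mem_univ j, hj⟩⟩)
    · rw [← hegen]
      exact fun g hg => ((hgen ▸ Algebra.subset_adjoin ⟨i, rfl⟩ : f i ∈ invariants G)) g (hle hg)
  have hbij : Function.Bijective σ := Finite.injective_iff_bijective.1 hσi
  have hle' : ∀ i, e (σ i) - 1 ≤ d i - 1 := fun i =>
    Nat.sub_le_sub_right (Finset.mem_filter.1 (hσ i)).2 1
  have hsum : ∑ i, (e (σ i) - 1) = ∑ i, (d i - 1) := by
    rw [hbij.sum_comp fun j => e j - 1, hHsum, hGsum, hrefl]
  have heq : ∀ i, e (σ i) = d i := fun i => by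
    have h1 := (Finset.sum_eq_sum_iff_of_le fun i _ => hle' i).1 hsum i (Finset.mem_univ i)
    have := (he (σ i)).1
    have := (hf i).1
    omega
  have hcard : Nat.card G = Nat.card H := by
    rw [← hGprod, ← hHprod, ← hbij.prod_comp e]
    exact Finset.prod_congr rfl fun i _ => (heq i).symm
  exact (Subgroup.eq_of_le_of_card_ge hle hcard.le).symm

end FA.SteinbergFixed
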