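import Fermat.Agent.SteinbergFixed.Converse
import Fermat.Agent.SteinbergFixed.Translate
import Mathlib.LinearAlgebra.Matrix.ToLin

/-!
# Steinberg's fixed point theorem

For minimal homogeneous generators `g₁, …, g_m` of the invariants of the stabiliser of `v`, the
linear coefficients of a polynomial in the `gⱼ` depend only on its value. Writing the translated
basic invariants `f₁, …, f_n` of `G` in the `gⱼ` gives an `n × m` matrix with a left inverse, since
every `gⱼ` agrees to high order with a translated invariant of `G`. So `m ≤ n`, and the converse of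
Shephard and Todd applies.
-/

set_option autoImplicit false

noncomputable section

open MvPolynomial

namespace FA.SteinbergFixed

open Fermat.Agent.ReflectionGroups

variable {n : ℕ} {k : Type*} [Field k]

/-- For minimal generators a linear coefficient is read off from the value. -/
theorem coeff_single_eq_zero {m : ℕ} {g : Fin m → MvPolynomial (Fin n) k} {d : Fin m → ℕ}
    (hd : ∀ i, 0 < d i ∧ (g i).IsHomogeneous (d i))
    (hmin : ∀ i, g i ∉ Ideal.span (g '' {i}ᶜ)) {R : MvPolynomial (Fin m) k} (j : Fin m)
    (hR : homogeneousComponent (d j) (aeval g R) = 0) : coeff (Finsupp.single j 1) R = 0 := by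
  classical
  by_contra hc
  set Q := weightedHomogeneousComponent d (d j) R
  have hQ : coeff (Finsupp.single j 1) Q = coeff (Finsupp.single j 1) R := by
    rw [coeff_weightedHomogeneousComponent, if_pos (by simp [Finsupp.weight_single])]
  have hmem : Finsupp.single j 1 ∈ Q.support := mem_support_iff.2 (hQ.trans_ne hc)
  rw [component_aeval (fun i => (hd i).2)] at hR
  change aeval g Q = 0 at hR
  rw [Q.as_sum, map_sum, ← Finset.add_sum_erase _ _ hmem] at hR
  have hrest : ∀ μ ∈ Q.support.erase (Finsupp.single j 1),
      aeval g (monomial μ (coeff μ Q)) ∈ Ideal.span (g '' {j}ᶜ) := by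
    intro μ hμ
    obtain ⟨hne, hμ⟩ := Finset.mem_erase.1 hμ
    have hw : Finsupp.weight d μ = d j :=
      weightedHomogeneousComponent_isWeightedHomogeneous _ _ (mem_support_iff.1 hμ)
    obtain ⟨i, hi, hij⟩ : ∃ i, i ∈ μ.support ∧ i ≠ j := by
      by_contra! hall
      have hμj : μ = Finsupp.single j (μ j) := by
        ext i
        rcases eq_or_ne i j with rfl | h
        · simp
        · rw [Finsupp.single_eq_of_ne h]
          exact Finsupp.notMem_support_iff.1 fun hi => h (hall i hi)
      rw [hμj, Finsupp.weight_single, smul_eq_mul] at hw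
      exact hne (by rw [hμj, (Nat.mul_eq_right (hd j).1.ne').1 hw])
    rw [aeval_monomial]
    refine Ideal.mul_mem_left _ _ (Ideal.mem_of_dvd _ (Finset.dvd_prod_of_mem _ hi) ?_)
    have hgi : g i ∈ Ideal.span (g '' {j}ᶜ) :=
      Ideal.subset_span (Set.mem_image_of_mem g (Set.mem_compl_singleton_iff.2 hij))
    exact Ideal.pow_mem_of_mem _ hgi _ (Nat.pos_of_ne_zero (Finsupp.mem_support_iff.1 hi))
  refine hmin j ?_
  rw [aeval_monomial, Finsupp.prod_single_index (h := fun i e => g i ^ e) (pow_zero _), pow_one,
    algebraMap_eq, hQ] at hR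
  have h1 : C (coeff (Finsupp.single j 1) R) * g j ∈ Ideal.span (g '' {j}ᶜ) := by
    rw [eq_neg_of_add_eq_zero_left hR]
    exact neg_mem (sum_mem hrest)
  have h2 := Ideal.mul_mem_left _ (C (coeff (Finsupp.single j 1) R)⁻¹) h1
  rwa [← mul_assoc, ← C_mul, inv_mul_cancel₀ hc, C_1, one_mul] at h2

/-- The linear coefficients of a composite. -/
theorem coeff_single_aeval {m : ℕ} (P : Fin n → MvPolynomial (Fin m) k)
    (Q : MvPolynomial (Fin n) k) (j : Fin m) :
    coeff (Finsupp.single j 1) (aeval P Q) =
      ∑ i, eval (fun l => constantCoeff (P l)) (pderiv i Q) * coeff (Finsupp.single j 1) (P i) := by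
  have hcp : ∀ p : MvPolynomial (Fin m) k,
      coeff (Finsupp.single j 1) p = constantCoeff (pderiv j p) := fun p => by
    rw [constantCoeff_eq, coeff_pderiv]
    simp
  have hev : ∀ q : MvPolynomial (Fin n) k,
      constantCoeff (aeval P q) = eval (fun l => constantCoeff (P l)) q := fun q => by
    induction q using MvPolynomial.induction_on with
    | C a => simp
    | add a b ha hb => simp only [map_add, ha, hb]
    | mul_X a i ha => simp only [map_mul, aeval_X, eval_X, ha]
  simp only [hcp, pderiv_aeval, map_sum, map_mul, hev]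

variable (G : Subgroup (GL (Fin n) k)) [Finite G] [CharZero k]

/-- **Steinberg's fixed point theorem.** -/
theorem steinberg
    (hG : G = Subgroup.closure {g | g ∈ G ∧ ((g : Matrix (Fin n) (Fin n) k) - 1).rank ≤ 1})
    (v : Fin n → k) :
    stab G v = Subgroup.closure
      {g | g ∈ stab G v ∧ ((g : Matrix (Fin n) (Fin n) k) - 1).rank ≤ 1} := by
  classical
  obtain ⟨f, d, hd, -, hgen⟩ := exists_basic_invariants G hG
  set H := stab G v
  have : Finite H := Finite.of_injective _ (Subgroup.inclusion_injective (stab_le G v))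
  obtain ⟨m, g, e, he, hmin, hI⟩ := exists_generators H
  have hHgen := invariants_eq_adjoin H he hI
  have hP : ∀ i, ∃ P : MvPolynomial (Fin m) k, aeval g P = shift v (f i) := fun i => by
    have hfi : f i ∈ invariants H := fun h hh =>
      (hgen ▸ Algebra.subset_adjoin ⟨i, rfl⟩ : f i ∈ invariants G) h hh.1
    have h1 := shift_mem_invariants G hfi (Or.inl rfl)
    rw [hHgen, Algebra.adjoin_range_eq_range_aeval] at h1
    exact h1
  choose P hP using hP
  set N := Finset.univ.sup e + 1
  have hQ : ∀ l, ∃ Q : MvPolynomial (Fin n) k,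
      shift v (aeval f Q) - g l ∈ idealOfVars (Fin n) k ^ N := fun l => by
    obtain ⟨T, hT, hTl⟩ := exists_invariant_congr G v (he l).1 N
    rw [hgen, Algebra.adjoin_range_eq_range_aeval] at hT
    obtain ⟨Q, rfl⟩ := hT
    exact ⟨Q, hTl⟩
  choose Q hQ using hQ
  set A : Matrix (Fin m) (Fin n) k := fun l i =>
    eval (fun a => constantCoeff (P a)) (pderiv i (Q l))
  set W : Matrix (Fin n) (Fin m) k := fun i j => coeff (Finsupp.single j 1) (P i)
  have hAW : A * W = 1 := by
    ext l j
    have h1 : aeval g (aeval P (Q l) - X l) = shift v (aeval f (Q l)) - g l := by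
      rw [map_sub, aeval_X, ← AlgHom.comp_apply, comp_aeval, ← AlgHom.comp_apply (shift v),
        comp_aeval]
      simp only [hP]
    have h2 := coeff_single_eq_zero (fun i => ⟨(he i).2.1, (he i).2.2⟩) hmin j
      (R := aeval P (Q l) - X l) <| by
        rw [h1]
        exact component_eq_zero (hQ l) (Nat.lt_succ_of_le (Finset.le_sup (Finset.mem_univ j)))
    rw [coeff_sub, coeff_single_aeval, coeff_X, sub_eq_zero] at h2
    rw [Matrix.mul_apply, h2]
    simp [Matrix.one_apply, Finsupp.single_left_inj]
  have hmn : m ≤ n := by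
    have h := Matrix.rank_mul_le_left A W
    rw [hAW, Matrix.rank_one, Fintype.card_fin] at h
    exact h.trans (Matrix.rank_le_width A)
  obtain rfl : m = n := le_antisymm hmn (le_card_generators H hHgen)
  exact shephard_todd_converse H (fun i => (he i).2) hHgen

/-- The pointwise stabiliser of a set. -/
def fixSet (S : Set (Fin n → k)) : Subgroup (GL (Fin n) k) :=
  G ⊓ ⨅ v ∈ S, stab ⊤ v

omit [Finite G] [CharZero k] in
theorem mem_fixSet {S : Set (Fin n → k)} {g : GL (Fin n) k} :
    g ∈ fixSet G S ↔ g ∈ G ∧ ∀ v ∈ S, Matrix.vecMul v (g : Matrix (Fin n) (Fin n) k) = v := by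
  simp [fixSet, Subgroup.mem_iInf, mem_stab]

/-- Steinberg's theorem for a set of points. -/
theorem steinberg_set
    (hG : G = Subgroup.closure {g | g ∈ G ∧ ((g : Matrix (Fin n) (Fin n) k) - 1).rank ≤ 1})
    (S : Set (Fin n → k)) :
    fixSet G S = Subgroup.closure
      {g | g ∈ fixSet G S ∧ ((g : Matrix (Fin n) (Fin n) k) - 1).rank ≤ 1} := by
  classical
  obtain ⟨s, hsS, hspan⟩ := (Submodule.fg_span_iff_fg_span_finset_subset S).1
    (IsNoetherian.noetherian (Submodule.span k S))
  have hSs : fixSet G S = fixSet G ↑s := by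
    ext g
    rw [mem_fixSet, mem_fixSet]
    refine and_congr_right fun _ => ⟨fun h v hv => h v (hsS hv), fun h v hv => ?_⟩
    have hle : Submodule.span k (↑s : Set (Fin n → k)) ≤
        LinearMap.eqLocus (Matrix.vecMulLinear (g : Matrix (Fin n) (Fin n) k)) LinearMap.id :=
      Submodule.span_le.2 fun w hw => h w hw
    exact hle (hspan ▸ Submodule.subset_span hv)
  rw [hSs]
  clear hSs hspan hsS
  induction s using Finset.induction_on with
  | empty =>
    have h0 : fixSet G ↑(∅ : Finset (Fin n → k)) = G := by
      ext g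
      simp [mem_fixSet]
    rwa [h0]
  | insert a s _ ih =>
    have h1 : fixSet G ↑(insert a s) = stab (fixSet G ↑s) a := by
      ext g
      simp [mem_fixSet, mem_stab]
      tauto
    have : Finite (fixSet G (↑s : Set (Fin n → k))) :=
      Finite.of_injective _ (Subgroup.inclusion_injective (inf_le_left : fixSet G ↑s ≤ G))
    rw [h1]
    exact steinberg (fixSet G ↑s) ih a

end FA.SteinbergFixed
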